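/-
Programme TW (S56), sub-programme C3, brick C3-T4c (inequality form), helper6.  ABSTRACT PART
(Mathlib only).

`D` a group acting on a set `X`, `C ≤ D`, `σ : Representation k C N`.  The module
`equivFun C σ X = {x : X → N | x (c • P) = σ c (x P)}` of `C`-equivariant functions embeds, for a
base point `x₀` of a transitive action, into Mathlib's coinduced module
`coindV C.subtype σ = {φ : D → N | φ (c * d) = σ c (φ d)}` via `x ↦ (d ↦ x (d • x₀))`, and the
image consists of vectors fixed (for the right translation action `coind`) by every element of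
`D` fixing `x₀`.  Hence `dim equivFun ≤ dim (coind)^{D₀}` for every `D₀` fixing `x₀`.
-/
import Mathlib

set_option autoImplicit false
set_option linter.unusedSectionVars false
set_option linter.style.haveILetI false

namespace Fermat.Agent.TW.TateMackey6.Orbit

variable {k D N X : Type*} [CommRing k] [Group D] [AddCommGroup N] [Module k N] [MulAction D X]
  (C : Subgroup D) (σ : Representation k C N)

/-- The `C`-equivariant functions `X → N`. -/
def equivFun (X : Type*) [MulAction D X] : Submodule k (X → N) where
  carrier := {x | ∀ (c : C) (P : X), x ((c : D) • P) = σ c (x P)}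
  add_mem' {x y} hx hy c P := by simp only [Pi.add_apply, hx c P, hy c P, map_add]
  zero_mem' c P := by simp
  smul_mem' a x hx c P := by simp only [Pi.smul_apply, hx c P, map_smul]

theorem mem_equivFun_iff (x : X → N) :
    x ∈ equivFun C σ X ↔ ∀ (c : C) (P : X), x ((c : D) • P) = σ c (x P) := Iff.rfl

/-- `x ↦ (d ↦ x (d • x₀))`. -/
def toCoind (x₀ : X) : ↥(equivFun C σ X) →ₗ[k] ↥(Representation.coindV C.subtype σ) where
  toFun x := ⟨fun d => x.1 (d • x₀), fun c d => by
    show x.1 ((C.subtype c * d) • x₀) = σ c (x.1 (d • x₀))
    rw [mul_smul]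
    exact x.2 c (d • x₀)⟩
  map_add' _ _ := rfl
  map_smul' _ _ := rfl

@[simp] theorem toCoind_apply (x₀ : X) (x : ↥(equivFun C σ X)) (d : D) :
    (toCoind C σ x₀ x).1 d = x.1 (d • x₀) := rfl

theorem toCoind_injective [MulAction.IsPretransitive D X] (x₀ : X) :
    Function.Injective (toCoind C σ x₀) := by
  intro x y h
  refine Subtype.ext (funext fun P => ?_)
  obtain ⟨d, rfl⟩ := MulAction.exists_smul_eq D x₀ P
  exact congrFun (congrArg Subtype.val h) d

/-- The image of `toCoind` is fixed by every element of `D` fixing the base point. -/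
theorem coind_toCoind {x₀ : X} {d₀ : D} (h : d₀ • x₀ = x₀) (x : ↥(equivFun C σ X)) :
    Representation.coind C.subtype σ d₀ (toCoind C σ x₀ x) = toCoind C σ x₀ x := by
  refine Subtype.ext (funext fun d => ?_)
  show x.1 ((d * d₀) • x₀) = x.1 (d • x₀)
  rw [mul_smul, h]

/-- `toCoind` with values in the fixed space of one element `d₀` fixing `x₀`. -/
def toKer (x₀ : X) (d₀ : D) (h : d₀ • x₀ = x₀) :
    ↥(equivFun C σ X) →ₗ[k] ↥(LinearMap.ker (Representation.coind C.subtype σ d₀ - 1)) :=
  (toCoind C σ x₀).codRestrict _ fun x => by
    rw [LinearMap.mem_ker, LinearMap.sub_apply, coind_toCoind C σ h, Module.End.one_apply,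
      sub_self]

theorem toKer_injective [MulAction.IsPretransitive D X] (x₀ : X) (d₀ : D) (h : d₀ • x₀ = x₀) :
    Function.Injective (toKer C σ x₀ d₀ h) := fun _ _ hxy =>
  toCoind_injective C σ x₀ (congrArg Subtype.val hxy)

/-- `toCoind` with values in the invariants of a group `G₀` acting through `j : G₀ →* D` whose
image fixes `x₀`. -/
noncomputable def toInvariants {G₀ : Type*} [Group G₀] (j : G₀ →* D) (x₀ : X) (h : ∀ g, j g • x₀ = x₀) :
    ↥(equivFun C σ X) →ₗ[k] ↥(Representation.invariants
        ((Representation.coind C.subtype σ).comp j :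
          Representation k G₀ ↥(Representation.coindV C.subtype σ))) :=
  (toCoind C σ x₀).codRestrict _ fun x g => coind_toCoind C σ (h g) x

theorem toInvariants_injective [MulAction.IsPretransitive D X] {G₀ : Type*} [Group G₀]
    (j : G₀ →* D) (x₀ : X) (h : ∀ g, j g • x₀ = x₀) :
    Function.Injective (toInvariants C σ j x₀ h) := fun _ _ hxy =>
  toCoind_injective C σ x₀ (congrArg Subtype.val hxy)

end Fermat.Agent.TW.TateMackey6.Orbit

namespace Fermat.Agent.TW.TateMackey6.Orbit

variable {k D N X : Type*} [Field k] [Group D] [Finite D] [AddCommGroup N] [Module k N]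
  [FiniteDimensional k N] [MulAction D X] [MulAction.IsPretransitive D X]
  (C : Subgroup D) (σ : Representation k C N)

instance finiteDimensional_coindV :
    FiniteDimensional k ↥(Representation.coindV C.subtype σ) := by
  haveI : FiniteDimensional k (D → N) := inferInstance
  infer_instance

/-- **Inequality, one fixing element.** -/
theorem finrank_equivFun_le_ker (x₀ : X) (d₀ : D) (h : d₀ • x₀ = x₀) :
    Module.finrank k ↥(equivFun C σ X) ≤
      Module.finrank k ↥(LinearMap.ker (Representation.coind C.subtype σ d₀ - 1)) :=
  LinearMap.finrank_le_finrank_of_injective (toKer_injective C σ x₀ d₀ h)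

/-- **Inequality, a group of fixing elements.** -/
theorem finrank_equivFun_le_invariants {G₀ : Type*} [Group G₀] (j : G₀ →* D) (x₀ : X)
    (h : ∀ g, j g • x₀ = x₀) :
    Module.finrank k ↥(equivFun C σ X) ≤
      Module.finrank k ↥(Representation.invariants
        ((Representation.coind C.subtype σ).comp j :
          Representation k G₀ ↥(Representation.coindV C.subtype σ))) :=
  LinearMap.finrank_le_finrank_of_injective (toInvariants_injective C σ j x₀ h)

end Fermat.Agent.TW.TateMackey6.Orbit
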