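/-
Programme TW (S56), sub-programme C3, brick C3-T4c (inequality form), helper6.
ARCHIMEDEAN PART (P2).

`F/ℚ` finite Galois inside `ℚ̄`, `D = Gal(F/ℚ)`, `C ≤ D`, `σ : Representation (ZMod p) C N`,
`M' = TateShap6.Main.modM F C σ` (`= Ind_C^D σ` inflated to `Γ`).  Then
`dim {x : InfinitePlace F → N | x (c • w) = σ c (x w)} ≤ h⁰(ℝ, M')`
(`GWIface97.h0c`, the fixed space of the complex conjugation of the Prelude): the place `w₀` of `F`
induced by `complexEmbedding` is fixed by the image of `complexConjugation`, and `D` is transitive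
on the infinite places of `F`.
-/
import Mathlib
import Fermat.Prelude.Def_GaloisRep_ComplexConjugation
import Fermat.Agent.TW.GWIface97
import Fermat.Agent.TW.TateShap6.Main
import Fermat.Agent.TW.TateMackey6.Orbit

set_option autoImplicit false
set_option linter.unusedSectionVars false
set_option linter.style.haveILetI false
set_option synthInstance.maxHeartbeats 200000

namespace Fermat.Agent.TW.TateMackey6.Arch

open NumberField
open Fermat.Agent.TW.TateShap6.Main Fermat.Agent.TW.TateMackey6

local notation "Qbar" => AlgebraicClosure ℚ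
local notation "Γ" => (AlgebraicClosure ℚ ≃ₐ[ℚ] AlgebraicClosure ℚ)

variable (F : IntermediateField ℚ Qbar) [FiniteDimensional ℚ F] [IsGalois ℚ F]

/-- The complex embedding of `F` induced by the Prelude's `complexEmbedding`. -/
noncomputable def embF : ↥F →+* ℂ :=
  (complexEmbedding : Qbar →ₐ[ℚ] ℂ).toRingHom.comp (algebraMap ↥F Qbar)

theorem embF_apply (x : ↥F) : embF F x = complexEmbedding (x : Qbar) := rfl

/-- The distinguished infinite place of `F`. -/
noncomputable def w0 : InfinitePlace ↥F := InfinitePlace.mk (embF F)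

theorem coe_resF_apply (g : Γ) (x : ↥F) : ((resF F g x : ↥F) : Qbar) = g (x : Qbar) :=
  AlgEquiv.restrictNormal_commutes g ↥F x

/-- The image of complex conjugation in `Gal(F/ℚ)` fixes the distinguished infinite place. -/
theorem resF_complexConjugation_smul_w0 : resF F complexConjugation • w0 F = w0 F := by
  rw [w0, InfinitePlace.smul_mk, ← InfinitePlace.mk_conjugate_eq (embF F)]
  congr 1
  ext x
  rw [ComplexEmbedding.conjugate_coe_eq]
  show embF F ((resF F complexConjugation).symm x) = _
  have h1 : (resF F complexConjugation).symm = resF F complexConjugation := by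
    have : (resF F complexConjugation)⁻¹ = resF F complexConjugation := by
      rw [← map_inv, complexConjugation_inv]
    exact this
  rw [h1, embF_apply, coe_resF_apply, complexEmbedding_complexConjugation]
  rfl

/-- `Gal(F/ℚ)` is transitive on the infinite places of `F`. -/
instance isPretransitive_infinitePlace :
    MulAction.IsPretransitive (↥F ≃ₐ[ℚ] ↥F) (InfinitePlace ↥F) :=
  ⟨fun _ _ => InfinitePlace.exists_smul_eq_of_comap_eq (Subsingleton.elim _ _)⟩

variable {p : ℕ} [Fact p.Prime] (C : Subgroup (↥F ≃ₐ[ℚ] ↥F)) {N : Type} [AddCommGroup N]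
  [Module (ZMod p) N] [FiniteDimensional (ZMod p) N] (σ : Representation (ZMod p) C N)

theorem h0c_modM :
    GWIface97.h0c (modM F C σ) = Module.finrank (ZMod p)
      ↥(LinearMap.ker (Representation.coind C.subtype σ (resF F complexConjugation) - 1)) := rfl

/-- **(P2)**: `dim Fun_C(S_∞(F), N) ≤ h⁰(ℝ, Ind_C^D N)`. -/
theorem finrank_equivFun_le_h0c :
    Module.finrank (ZMod p) ↥(Orbit.equivFun C σ (InfinitePlace ↥F)) ≤
      GWIface97.h0c (Rep.of ((Representation.coind C.subtype σ).comp
        (AlgEquiv.restrictNormalHom F)) : Rep.{0} (ZMod p) Γ) := by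
  haveI : Finite (↥F ≃ₐ[ℚ] ↥F) := inferInstance
  exact Orbit.finrank_equivFun_le_ker C σ (w0 F) (resF F complexConjugation)
    (resF_complexConjugation_smul_w0 F)

end Fermat.Agent.TW.TateMackey6.Arch
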