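/-
Programme TW (S56), sub-programme C3, brick C3-T4c (inequality form), helper6.
LOCAL PART (P1).

`F/ℚ` finite Galois inside `ℚ̄`, `D = Gal(F/ℚ)`, `C ≤ D`, `σ : Representation (ZMod p) C N`,
`M' = TateShap6.Main.modM F C σ`, `q` a rational prime, `PrimesOver F q` the set of primes of `F`
above `q` with the `D`-action of `PT/GLOB/Interface23`.  Then
`dim {x : PrimesOver F q → N | x (c • P) = σ c (x P)} ≤ h⁰(ℚ_q, M')`  (`GWIface97.h0l`):
the prime `P₀` of `F` below the canonical place `primeLocalPlace q` of `ℚ̄` is fixed by the image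
of the local Galois group (which lies in the decomposition group of that place), and `D` is
transitive on the primes above `q`.
-/
import Mathlib
import Fermat.Prelude.Def_ExtEndgame_ProductionDatum
import Fermat.Agent.S13.UnramRam
import Fermat.Agent.PT.GLOB.Interface23
import Fermat.Agent.TW.GWIface97
import Fermat.Agent.TW.TateShap6.Main
import Fermat.Agent.TW.TateMackey6.Orbit

set_option autoImplicit false
set_option linter.unusedSectionVars false
set_option linter.style.haveILetI false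
set_option synthInstance.maxHeartbeats 200000

namespace Fermat.Agent.TW.TateMackey6.Local

open NumberField IsDedekindDomain ExtCitation
open scoped Pointwise NNReal
open Fermat.Agent.PT.GLOB Fermat.Agent.S13
open Fermat.Agent.TW.TateShap6.Main Fermat.Agent.TW.TateMackey6

local notation "Qbar" => AlgebraicClosure ℚ
local notation "Γ" => (AlgebraicClosure ℚ ≃ₐ[ℚ] AlgebraicClosure ℚ)

/-! ### The canonical place over `q` and the local Galois group -/

/-- The canonical place `padicPlace q` of `ℚ̄` lies over `q`. -/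
theorem padicPlace_liesOverPrime (q : ℕ) [Fact q.Prime] : (padicPlace q).LiesOverPrime q := by
  have hq : q.Prime := Fact.out
  show ((q : ℕ) : Qbar) ∈ (padicPlace q).nonunits
  rw [ValuationSubring.mem_nonunits_iff_or]
  right
  rw [mem_padicPlace_iff, map_inv₀, map_natCast, nnnorm_inv, not_le]
  have h1 : ‖((q : ℕ) : PadicAlgCl q)‖₊ = 1 / (q : ℝ≥0) := by
    have := PadicAlgCl.valuation_p q
    rwa [PadicAlgCl.valuation_def] at this
  rw [h1, one_div, inv_inv]
  exact_mod_cast hq.one_lt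

theorem primeLocalPlace_liesOverPrime (q : Nat.Primes) :
    (primeLocalPlace q).LiesOverPrime q :=
  letI : Fact (q : ℕ).Prime := ⟨q.2⟩
  padicPlace_liesOverPrime (q : ℕ)

/-- The image of the local Galois group lies in the decomposition group of the canonical
place. -/
theorem primeLocalToGlobal_mem_decompositionSubgroup (q : Nat.Primes)
    (g : primeLocalGaloisGroup q) :
    primeLocalToGlobal q g ∈ (primeLocalPlace q).decompositionSubgroup ℚ :=
  letI : Fact (q : ℕ).Prime := ⟨q.2⟩
  localGaloisToGlobal_mem_decompositionSubgroup (q : ℕ) g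

/-- Elements of the decomposition group preserve the non-units of the place. -/
theorem apply_mem_nonunits_iff {A : ValuationSubring Qbar} {γ : Γ}
    (hγ : γ ∈ A.decompositionSubgroup ℚ) (y : Qbar) : γ y ∈ A.nonunits ↔ y ∈ A.nonunits := by
  have hγA : γ • A = A := MulAction.mem_stabilizer_iff.1 hγ
  have key : ∀ z : Qbar, γ z ∈ A ↔ z ∈ A := by
    intro z
    have h := ValuationSubring.smul_mem_pointwise_smul_iff (g := γ) (S := A) (x := z)
    rw [hγA] at h
    exact h
  rw [ValuationSubring.mem_nonunits_iff_or, ValuationSubring.mem_nonunits_iff_or,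
    EmbeddingLike.map_eq_zero_iff, ← map_inv₀, key]

/-! ### The primes of `F` above `q` -/

variable (F : IntermediateField ℚ Qbar) [FiniteDimensional ℚ F] [IsGalois ℚ F] (q : Nat.Primes)

/-- The primes of `𝓞 F` above the rational prime `q`. -/
def PrimesOver : Type :=
  {P : HeightOneSpectrum (𝓞 ↥F) // ((q : ℕ) : 𝓞 ↥F) ∈ P.asIdeal}

theorem natCast_mem_smul_iff (σ : ↥F ≃ₐ[ℚ] ↥F) (I : Ideal (𝓞 ↥F)) (n : ℕ) :
    (n : 𝓞 ↥F) ∈ σ • I ↔ (n : 𝓞 ↥F) ∈ I := by
  have h := Interface23.natCast_mem_smul_iff ℚ ↥F σ I (n : ℤ)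
  rwa [Int.cast_natCast] at h

/-- `Gal(F/ℚ)` acts on the primes above `q` (through the action of `Interface23`). -/
noncomputable instance instMulActionPrimesOver : MulAction (↥F ≃ₐ[ℚ] ↥F) (PrimesOver F q) where
  smul σ P := ⟨σ • P.1, by
    rw [Interface23.smul_asIdeal, natCast_mem_smul_iff]
    exact P.2⟩
  one_smul P := Subtype.ext (one_smul _ _)
  mul_smul σ τ P := Subtype.ext (mul_smul _ _ _)

theorem coe_smul_primesOver (σ : ↥F ≃ₐ[ℚ] ↥F) (P : PrimesOver F q) :
    (σ • P : PrimesOver F q).1 = σ • P.1 := rfl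

/-- The prime of `ℤ` below a prime of `𝓞 F` containing `q`. -/
theorem under_int_eq_span (P : HeightOneSpectrum (𝓞 ↥F)) (hP : ((q : ℕ) : 𝓞 ↥F) ∈ P.asIdeal) :
    P.asIdeal.under ℤ = Ideal.span {((q : ℕ) : ℤ)} := by
  have hq : Prime ((q : ℕ) : ℤ) := Nat.prime_iff_prime_int.mp q.2
  have hmax : (Ideal.span {((q : ℕ) : ℤ)}).IsMaximal :=
    PrincipalIdealRing.isMaximal_of_irreducible hq.irreducible
  have hprime : (P.asIdeal.under ℤ).IsPrime := Ideal.IsPrime.under ℤ P.asIdeal
  refine (hmax.eq_of_le hprime.ne_top ?_).symm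
  rw [Ideal.span_singleton_le_iff_mem, Ideal.mem_comap, map_natCast]
  exact hP

/-- `Gal(F/ℚ)` permutes the primes above `q` transitively. -/
theorem exists_smul_eq (P P' : PrimesOver F q) : ∃ σ : ↥F ≃ₐ[ℚ] ↥F, σ • P = P' := by
  have hu : P.1.asIdeal.under (𝓞 ℚ) = P'.1.asIdeal.under (𝓞 ℚ) := by
    ext x
    obtain ⟨n, rfl⟩ : ∃ n : ℤ, algebraMap ℤ (𝓞 ℚ) n = x :=
      ⟨Rat.ringOfIntegersEquiv x, by
        apply Rat.ringOfIntegersEquiv.injective
        rw [eq_intCast, map_intCast, Int.cast_id]⟩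
    have h1 : ∀ Q : HeightOneSpectrum (𝓞 ↥F),
        algebraMap ℤ (𝓞 ℚ) n ∈ Q.asIdeal.under (𝓞 ℚ) ↔ n ∈ Q.asIdeal.under ℤ := by
      intro Q
      rw [Ideal.mem_comap, Ideal.mem_comap, ← IsScalarTower.algebraMap_apply]
    rw [h1, h1, under_int_eq_span F q P.1 P.2, under_int_eq_span F q P'.1 P'.2]
  obtain ⟨τ, hτ⟩ := Algebra.IsInvariant.exists_smul_of_under_eq (𝓞 ℚ) (𝓞 ↥F) (↥F ≃ₐ[ℚ] ↥F)
    P.1.asIdeal P'.1.asIdeal hu
  exact ⟨τ, Subtype.ext (HeightOneSpectrum.ext hτ).symm⟩

instance isPretransitive_primesOver :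
    MulAction.IsPretransitive (↥F ≃ₐ[ℚ] ↥F) (PrimesOver F q) :=
  ⟨exists_smul_eq F q⟩

/-! ### The distinguished prime -/

theorem natCast_mem_primeBelow :
    ((q : ℕ) : 𝓞 ↥F) ∈ UnramRam.primeBelow F (primeLocalPlace q) := by
  rw [UnramRam.mem_primeBelow_iff]
  have h : ((((q : ℕ) : 𝓞 ↥F) : ↥F) : Qbar) = ((q : ℕ) : Qbar) := by
    simp
  rw [h]
  exact primeLocalPlace_liesOverPrime q

/-- The prime of `F` below the canonical place of `ℚ̄` over `q`. -/
noncomputable def P0 : PrimesOver F q :=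
  ⟨⟨UnramRam.primeBelow F (primeLocalPlace q), inferInstance, fun h => by
      have h1 := natCast_mem_primeBelow F q
      rw [h, Ideal.mem_bot] at h1
      have h2 : ((q : ℕ) : 𝓞 ↥F) ≠ 0 := Nat.cast_ne_zero.2 q.2.ne_zero
      exact h2 h1⟩, natCast_mem_primeBelow F q⟩

theorem P0_asIdeal : (P0 F q).1.asIdeal = UnramRam.primeBelow F (primeLocalPlace q) := rfl

theorem coe_resF_apply (g : Γ) (x : ↥F) : ((resF F g x : ↥F) : Qbar) = g (x : Qbar) :=
  AlgEquiv.restrictNormal_commutes g ↥F x

/-- The image in `Gal(F/ℚ)` of an element of the decomposition group of a place `A` of `ℚ̄` fixes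
the prime of `F` below `A`. -/
theorem smul_primeBelow {A : ValuationSubring Qbar} {γ : Γ}
    (hγ : γ ∈ A.decompositionSubgroup ℚ) :
    resF F γ • UnramRam.primeBelow F A = UnramRam.primeBelow F A := by
  ext x
  rw [Ideal.mem_pointwise_smul_iff_inv_smul_mem, UnramRam.mem_primeBelow_iff,
    UnramRam.mem_primeBelow_iff]
  have h1 : ((((resF F γ)⁻¹ • x : 𝓞 ↥F) : ↥F) : Qbar) = γ⁻¹ ((x : ↥F) : Qbar) := by
    rw [← map_inv]
    exact coe_resF_apply F γ⁻¹ (x : ↥F)
  rw [h1]
  exact apply_mem_nonunits_iff (A.decompositionSubgroup ℚ |>.inv_mem hγ) _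

/-- The image of the local Galois group fixes the distinguished prime. -/
theorem smul_P0 (g : primeLocalGaloisGroup q) :
    resF F (primeLocalToGlobal q g) • P0 F q = P0 F q := by
  apply Subtype.ext
  apply HeightOneSpectrum.ext
  rw [coe_smul_primesOver, Interface23.smul_asIdeal, P0_asIdeal]
  exact smul_primeBelow F (primeLocalToGlobal_mem_decompositionSubgroup q g)

/-! ### The inequality -/

variable {p : ℕ} [Fact p.Prime] (C : Subgroup (↥F ≃ₐ[ℚ] ↥F)) {N : Type} [AddCommGroup N]
  [Module (ZMod p) N] [FiniteDimensional (ZMod p) N] (σ : Representation (ZMod p) C N)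

theorem h0l_modM :
    GWIface97.h0l q (modM F C σ) = Module.finrank (ZMod p)
      ↥(Representation.invariants
        ((Representation.coind C.subtype σ).comp ((resF F).comp (primeLocalToGlobal q)) :
          Representation (ZMod p) (primeLocalGaloisGroup q)
            ↥(Representation.coindV C.subtype σ))) := rfl

/-- **(P1), general `D`-set**: for a transitive `D`-set `X` with a point fixed by the image of
the local Galois group at `q`. -/
theorem finrank_equivFun_le_h0l_of_fixed {X : Type*} [MulAction (↥F ≃ₐ[ℚ] ↥F) X]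
    [MulAction.IsPretransitive (↥F ≃ₐ[ℚ] ↥F) X] (x₀ : X)
    (h : ∀ g : primeLocalGaloisGroup q, resF F (primeLocalToGlobal q g) • x₀ = x₀) :
    Module.finrank (ZMod p) ↥(Orbit.equivFun C σ X) ≤
      GWIface97.h0l q (Rep.of ((Representation.coind C.subtype σ).comp
        (AlgEquiv.restrictNormalHom F)) : Rep.{0} (ZMod p) Γ) := by
  haveI : Finite (↥F ≃ₐ[ℚ] ↥F) := inferInstance
  exact Orbit.finrank_equivFun_le_invariants C σ ((resF F).comp (primeLocalToGlobal q)) x₀ h

/-- **(P1)**: `dim Fun_C({primes of F over q}, N) ≤ h⁰(ℚ_q, Ind_C^D N)`. -/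
theorem finrank_equivFun_le_h0l :
    Module.finrank (ZMod p) ↥(Orbit.equivFun C σ (PrimesOver F q)) ≤
      GWIface97.h0l q (Rep.of ((Representation.coind C.subtype σ).comp
        (AlgEquiv.restrictNormalHom F)) : Rep.{0} (ZMod p) Γ) :=
  finrank_equivFun_le_h0l_of_fixed F q C σ (P0 F q) (smul_P0 F q)

end Fermat.Agent.TW.TateMackey6.Local
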