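/-
Programme TW (S56), sub-programme C3, brick C3-T4c FINAL (helper62's packaging), helper6.

The two "places" inequalities in the exact shape requested by the C3 assembly:

* `(P2)` `dim {x : InfinitePlace F → N | x (c • w) = σ c (x w)} ≤ h⁰(ℝ, Ind_C^D N)`;
* `(P1)` with `Pq F q = {P : HeightOneSpectrum (𝓞 F) | ((q : ℕ) : ℤ) ∈ P}` (the membership form of
  `UnitsBridge24.mem_primesOverT`) and the action `DirHerb5.GaloisAction.smulP`:
  `dim {x : Pq F q → N | x ⟨smulP F c P, _⟩ = σ c (x P)} ≤ h⁰(ℚ_q, Ind_C^D N)`.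
-/
import Mathlib
import Fermat.Agent.TW.DirHerb5.GaloisAction
import Fermat.Agent.TW.TateMackey6.Arch
import Fermat.Agent.TW.TateMackey6.Local

set_option autoImplicit false
set_option linter.unusedSectionVars false
set_option linter.style.haveILetI false
set_option synthInstance.maxHeartbeats 200000

namespace Fermat.Agent.TW.TateMackey6.Places

open NumberField IsDedekindDomain ExtCitation
open scoped Pointwise
open Fermat.Agent.PT.GLOB
open Fermat.Agent.TW.DirHerb5.GaloisAction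
open Fermat.Agent.TW.TateShap6.Main Fermat.Agent.TW.TateMackey6

local notation "Qbar" => AlgebraicClosure ℚ
local notation "Γ" => (AlgebraicClosure ℚ ≃ₐ[ℚ] AlgebraicClosure ℚ)

variable (F : IntermediateField ℚ Qbar) [FiniteDimensional ℚ F] [IsGalois ℚ F] (q : Nat.Primes)
variable {p : ℕ} [Fact p.Prime] (C : Subgroup (↥F ≃ₐ[ℚ] ↥F)) {N : Type} [AddCommGroup N]
  [Module (ZMod p) N] [FiniteDimensional (ZMod p) N] (σ : Representation (ZMod p) C N)

/-! ### (P2) -/

/-- The `C`-equivariant functions on the infinite places of `F`. -/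
def funInf : Submodule (ZMod p) (InfinitePlace ↥F → N) where
  carrier := {x | ∀ (c : C) (w : InfinitePlace ↥F), x ((c : ↥F ≃ₐ[ℚ] ↥F) • w) = σ c (x w)}
  add_mem' {x y} hx hy c P := by simp only [Pi.add_apply, hx c P, hy c P, map_add]
  zero_mem' c P := by simp
  smul_mem' a x hx c P := by simp only [Pi.smul_apply, hx c P, map_smul]

theorem mem_funInf_iff (x : InfinitePlace ↥F → N) :
    x ∈ funInf F C σ ↔
      ∀ (c : C) (w : InfinitePlace ↥F), x ((c : ↥F ≃ₐ[ℚ] ↥F) • w) = σ c (x w) := Iff.rfl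

theorem funInf_eq : funInf F C σ = Orbit.equivFun C σ (InfinitePlace ↥F) := rfl

/-- **(P2)** -/
theorem finrank_funInf_le_h0c :
    Module.finrank (ZMod p) ↥(funInf F C σ) ≤
      GWIface97.h0c (Rep.of ((Representation.coind C.subtype σ).comp
        (AlgEquiv.restrictNormalHom F)) : Rep.{0} (ZMod p) Γ) :=
  Arch.finrank_equivFun_le_h0c F C σ

/-! ### (P1) -/

/-- The primes of `𝓞 F` above `q`, membership in the form of `UnitsBridge24.mem_primesOverT`. -/
def Pq : Type := {P : HeightOneSpectrum (𝓞 ↥F) // (((q : ℕ) : ℤ) : 𝓞 ↥F) ∈ P.asIdeal}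

theorem smulP_mem (d : ↥F ≃ₐ[ℚ] ↥F) (P : Pq F q) :
    (((q : ℕ) : ℤ) : 𝓞 ↥F) ∈ (smulP (k := ℚ) ↥F d P.1).asIdeal := by
  rw [smulP_asIdeal, Interface23.natCast_mem_smul_iff]
  exact P.2

/-- The action of `Gal(F/ℚ)` on `Pq F q` through `smulP` (NOT a global instance). -/
@[instance_reducible]
noncomputable def mulActionPq : MulAction (↥F ≃ₐ[ℚ] ↥F) (Pq F q) where
  smul d P := ⟨smulP (k := ℚ) ↥F d P.1, smulP_mem F q d P⟩
  one_smul P := Subtype.ext (smulP_one ↥F P.1)
  mul_smul d d' P := Subtype.ext (smulP_smulP ↥F d d' P.1).symm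

/-- `Pq F q` and `Local.PrimesOver F q` are the same `D`-set. -/
def toPrimesOver (P : Pq F q) : Local.PrimesOver F q :=
  ⟨P.1, by
    have h : (((q : ℕ) : ℤ) : 𝓞 ↥F) ∈ P.1.asIdeal := P.2
    simpa using h⟩

def ofPrimesOver (P : Local.PrimesOver F q) : Pq F q :=
  ⟨P.1, by
    have h : ((q : ℕ) : 𝓞 ↥F) ∈ P.1.asIdeal := P.2
    simpa using h⟩

theorem smulP_eq_smul (d : ↥F ≃ₐ[ℚ] ↥F) (P : HeightOneSpectrum (𝓞 ↥F)) :
    smulP (k := ℚ) ↥F d P = d • P := HeightOneSpectrum.ext rfl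

theorem isPretransitive_Pq :
    @MulAction.IsPretransitive (↥F ≃ₐ[ℚ] ↥F) (Pq F q) (mulActionPq F q).toSMul := by
  letI := mulActionPq F q
  refine ⟨fun P P' => ?_⟩
  obtain ⟨d, hd⟩ := Local.exists_smul_eq F q (toPrimesOver F q P) (toPrimesOver F q P')
  refine ⟨d, Subtype.ext ?_⟩
  show smulP (k := ℚ) ↥F d P.1 = P'.1
  rw [smulP_eq_smul]
  exact congrArg Subtype.val hd

/-- The `C`-equivariant functions on the primes of `F` above `q`. -/
def funPq : Submodule (ZMod p) (Pq F q → N) where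
  carrier := {x | ∀ (c : C) (P : Pq F q),
    x ⟨smulP (k := ℚ) ↥F (c : ↥F ≃ₐ[ℚ] ↥F) P.1, smulP_mem F q c P⟩ = σ c (x P)}
  add_mem' {x y} hx hy c P := by
    show x _ + y _ = σ c (x P + y P)
    rw [hx c P, hy c P, map_add]
  zero_mem' c P := by
    show (0 : N) = σ c 0
    rw [map_zero]
  smul_mem' a x hx c P := by
    show a • x _ = σ c (a • x P)
    rw [hx c P, map_smul]

theorem mem_funPq_iff (x : Pq F q → N) :
    x ∈ funPq F q C σ ↔ ∀ (c : C) (P : Pq F q),
      x ⟨smulP (k := ℚ) ↥F (c : ↥F ≃ₐ[ℚ] ↥F) P.1, smulP_mem F q c P⟩ = σ c (x P) := Iff.rfl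

/-- **(P1)** -/
theorem finrank_funPq_le_h0l :
    Module.finrank (ZMod p) ↥(funPq F q C σ) ≤
      GWIface97.h0l q (Rep.of ((Representation.coind C.subtype σ).comp
        (AlgEquiv.restrictNormalHom F)) : Rep.{0} (ZMod p) Γ) := by
  letI := mulActionPq F q
  haveI := isPretransitive_Pq F q
  have h0 : ∀ g : primeLocalGaloisGroup q,
      resF F (primeLocalToGlobal q g) • ofPrimesOver F q (Local.P0 F q) =
        ofPrimesOver F q (Local.P0 F q) := by
    intro g
    apply Subtype.ext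
    show smulP (k := ℚ) ↥F (resF F (primeLocalToGlobal q g)) (Local.P0 F q).1 = (Local.P0 F q).1
    rw [smulP_eq_smul]
    exact congrArg Subtype.val (Local.smul_P0 F q g)
  have h1 : funPq F q C σ = Orbit.equivFun C σ (Pq F q) := rfl
  rw [h1]
  exact Local.finrank_equivFun_le_h0l_of_fixed F q C σ (ofPrimesOver F q (Local.P0 F q)) h0

end Fermat.Agent.TW.TateMackey6.Places
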