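/-
Programme TW (S56), brick C3-T4c (helper6): Mackey's formula for the invariants of a coinduced
module, abstract (Mathlib-only) form.

`i : H →* G` a group homomorphism, `K : Subgroup G`, `ρ` a `k`-linear representation of `H` on
`X`.  The module `biInv i K ρ` of functions `f : G → X` with `f (i h * g) = ρ h (f g)` and
`f (g * c) = f g` (`c ∈ K`) is the module of `K`-invariants of the (full) coinduced module
`Coind_H^G X` (functions model, `G` acting by right translation).  For any choice `s` of
representatives of the double cosets `i(H) \ G / K`, evaluation at the representatives is a linear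
isomorphism
  `biInv i K ρ ≃ₗ[k] Π q : i(H) \ G / K, X ^ {h | (s q)⁻¹ * i h * s q ∈ K}`.
-/
import Mathlib

set_option autoImplicit false

namespace Fermat.Agent.TW.TateMackey6.Abstract

variable {k G H X : Type*} [CommRing k] [Group G] [Group H] [AddCommGroup X] [Module k X]
  (i : H →* G) (K : Subgroup G) (ρ : Representation k H X)

/-- The functions `G → X` which are `H`-equivariant on the left and `K`-invariant on the right. -/
def biInv : Submodule k (G → X) where
  carrier := {f | (∀ (h : H) (g : G), f (i h * g) = ρ h (f g)) ∧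
    ∀ (g : G), ∀ c ∈ K, f (g * c) = f g}
  add_mem' := fun {f f'} hf hf' =>
    ⟨fun h g => by simp only [Pi.add_apply, hf.1, hf'.1, map_add],
      fun g c hc => by simp only [Pi.add_apply, hf.2 g c hc, hf'.2 g c hc]⟩
  zero_mem' := ⟨fun h g => by simp, fun g c _ => rfl⟩
  smul_mem' := fun a f hf =>
    ⟨fun h g => by simp only [Pi.smul_apply, hf.1, map_smul],
      fun g c hc => by simp only [Pi.smul_apply, hf.2 g c hc]⟩

theorem mem_biInv {f : G → X} :
    f ∈ biInv i K ρ ↔
      (∀ (h : H) (g : G), f (i h * g) = ρ h (f g)) ∧ ∀ (g : G), ∀ c ∈ K, f (g * c) = f g :=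
  Iff.rfl

/-- `i⁻¹ (g K g⁻¹)` as a subgroup of `H`. -/
def stab (g : G) : Subgroup H where
  carrier := {h | g⁻¹ * i h * g ∈ K}
  one_mem' := by simp
  mul_mem' := fun {a b} ha hb => by
    have : g⁻¹ * i (a * b) * g = (g⁻¹ * i a * g) * (g⁻¹ * i b * g) := by
      rw [map_mul]; group
    show g⁻¹ * i (a * b) * g ∈ K
    rw [this]
    exact K.mul_mem ha hb
  inv_mem' := fun {a} ha => by
    have : g⁻¹ * i a⁻¹ * g = (g⁻¹ * i a * g)⁻¹ := by
      rw [map_inv]; group
    show g⁻¹ * i a⁻¹ * g ∈ K
    rw [this]
    exact K.inv_mem ha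

theorem mem_stab {g : G} {h : H} : h ∈ stab i K g ↔ g⁻¹ * i h * g ∈ K := Iff.rfl

/-- The invariants of `X` under `i⁻¹ (g K g⁻¹)`. -/
def fixedBy (g : G) : Submodule k X where
  carrier := {x | ∀ h ∈ stab i K g, ρ h x = x}
  add_mem' := fun {x y} hx hy h hh => by rw [map_add, hx h hh, hy h hh]
  zero_mem' := fun h _ => map_zero _
  smul_mem' := fun a x hx h hh => by rw [map_smul, hx h hh]

theorem mem_fixedBy {g : G} {x : X} : x ∈ fixedBy i K ρ g ↔ ∀ h ∈ stab i K g, ρ h x = x :=
  Iff.rfl

variable {i K ρ}

theorem eval_mem_fixedBy {f : G → X} (hf : f ∈ biInv i K ρ) (g : G) : f g ∈ fixedBy i K ρ g := by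
  intro h hh
  rw [← hf.1 h g]
  have : i h * g = g * (g⁻¹ * i h * g) := by group
  rw [this]
  exact hf.2 g _ hh

/-- the value of a bi-invariant function on a double coset -/
theorem eval_mul_mul {f : G → X} (hf : f ∈ biInv i K ρ) (h : H) (g c : G) (hc : c ∈ K) :
    f (i h * g * c) = ρ h (f g) := by
  rw [hf.2 _ c hc, hf.1]

variable (i K ρ)

/-- Evaluation at a choice of representatives. -/
def evalRep (s : DoubleCoset.Quotient (i.range : Set G) K → G) :
    biInv i K ρ →ₗ[k] (Π q : DoubleCoset.Quotient (i.range : Set G) K, fixedBy i K ρ (s q)) where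
  toFun f q := ⟨f.1 (s q), eval_mem_fixedBy f.2 (s q)⟩
  map_add' _ _ := rfl
  map_smul' _ _ := rfl

variable {i K ρ}

/-- every `g` is `i h * s [g] * c`. -/
theorem exists_decomp {s : DoubleCoset.Quotient (i.range : Set G) K → G}
    (hs : ∀ q, DoubleCoset.mk i.range K (s q) = q) (g : G) :
    ∃ (h : H) (c : G), c ∈ K ∧ g = i h * s (DoubleCoset.mk i.range K g) * c := by
  obtain ⟨r, hr, c, hc, hg⟩ :=
    (DoubleCoset.eq i.range K (s (DoubleCoset.mk i.range K g)) g).mp (hs _)
  obtain ⟨h, rfl⟩ := hr
  exact ⟨h, c, hc, hg⟩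

theorem evalRep_injective {s : DoubleCoset.Quotient (i.range : Set G) K → G}
    (hs : ∀ q, DoubleCoset.mk i.range K (s q) = q) : Function.Injective (evalRep i K ρ s) := by
  intro f f' hff'
  apply Subtype.ext
  funext g
  obtain ⟨h, c, hc, hg⟩ := exists_decomp hs g
  have e := congrFun hff' (DoubleCoset.mk i.range K g)
  have e' : f.1 (s (DoubleCoset.mk i.range K g)) = f'.1 (s (DoubleCoset.mk i.range K g)) :=
    congrArg Subtype.val e
  rw [hg, eval_mul_mul f.2 h _ c hc, eval_mul_mul f'.2 h _ c hc, e']

theorem evalRep_surjective {s : DoubleCoset.Quotient (i.range : Set G) K → G}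
    (hs : ∀ q, DoubleCoset.mk i.range K (s q) = q) : Function.Surjective (evalRep i K ρ s) := by
  classical
  intro x
  have hdec : ∀ g : G, ∃ hc : H × G, hc.2 ∈ K ∧
      g = i hc.1 * s (DoubleCoset.mk i.range K g) * hc.2 := by
    intro g
    obtain ⟨h, c, hc, hg⟩ := exists_decomp hs g
    exact ⟨(h, c), hc, hg⟩
  choose dec hdecK hdecg using hdec
  let f : G → X := fun g => ρ (dec g).1 (x (DoubleCoset.mk i.range K g)).1
  -- key: independence of the decomposition
  have key : ∀ (g : G) (h : H) (c : G), c ∈ K → g = i h * s (DoubleCoset.mk i.range K g) * c →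
      f g = ρ h (x (DoubleCoset.mk i.range K g)).1 := by
    intro g h c hc hg
    set q := DoubleCoset.mk i.range K g with hq
    have h1 : i (dec g).1 * s q * (dec g).2 = i h * s q * c := by
      rw [← hdecg g, ← hg]
    have hmem : h⁻¹ * (dec g).1 ∈ stab i K (s q) := by
      rw [mem_stab]
      have : (s q)⁻¹ * i (h⁻¹ * (dec g).1) * s q = c * ((dec g).2)⁻¹ := by
        have h2 : i (dec g).1 * s q = i h * s q * c * ((dec g).2)⁻¹ := by
          rw [← h1]; group
        rw [map_mul, map_inv]
        calc (s q)⁻¹ * ((i h)⁻¹ * i (dec g).1) * s q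
            = (s q)⁻¹ * (i h)⁻¹ * (i (dec g).1 * s q) := by group
          _ = (s q)⁻¹ * (i h)⁻¹ * (i h * s q * c * ((dec g).2)⁻¹) := by rw [h2]
          _ = c * ((dec g).2)⁻¹ := by group
      rw [this]
      exact K.mul_mem hc (K.inv_mem (hdecK g))
    have hfix := (x q).2 _ hmem
    show ρ (dec g).1 (x q).1 = ρ h (x q).1
    have : (dec g).1 = h * (h⁻¹ * (dec g).1) := by group
    rw [this, map_mul, Module.End.mul_apply, hfix]
  have hf : f ∈ biInv i K ρ := by
    constructor
    · intro h g
      have hq : DoubleCoset.mk i.range K (i h * g) = DoubleCoset.mk i.range K g := by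
        rw [eq_comm, DoubleCoset.eq]
        exact ⟨i h, ⟨h, rfl⟩, 1, K.one_mem, by rw [mul_one]⟩
      have hg' : i h * g = i (h * (dec g).1) * s (DoubleCoset.mk i.range K (i h * g)) *
          (dec g).2 := by
        rw [hq, map_mul]
        conv_lhs => rw [hdecg g]
        group
      rw [key _ _ _ (hdecK g) hg', hq, map_mul, Module.End.mul_apply]
    · intro g c hc
      have hq : DoubleCoset.mk i.range K (g * c) = DoubleCoset.mk i.range K g := by
        rw [eq_comm, DoubleCoset.eq]
        exact ⟨1, i.range.one_mem, c, hc, by rw [one_mul]⟩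
      have hg' : g * c = i (dec g).1 * s (DoubleCoset.mk i.range K (g * c)) *
          ((dec g).2 * c) := by
        rw [hq]
        conv_lhs => rw [hdecg g]
        group
      rw [key _ _ _ (K.mul_mem (hdecK g) hc) hg', hq]
  refine ⟨⟨f, hf⟩, ?_⟩
  funext q
  apply Subtype.ext
  show f (s q) = (x q).1
  have hq : DoubleCoset.mk i.range K (s q) = q := hs q
  have := key (s q) 1 1 K.one_mem (by rw [hq]; simp)
  rw [this, hq, map_one, Module.End.one_apply]

/-- **Mackey's formula for invariants**, as a linear equivalence. -/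
noncomputable def mackeyEquiv (s : DoubleCoset.Quotient (i.range : Set G) K → G)
    (hs : ∀ q, DoubleCoset.mk i.range K (s q) = q) :
    biInv i K ρ ≃ₗ[k] (Π q : DoubleCoset.Quotient (i.range : Set G) K, fixedBy i K ρ (s q)) :=
  LinearEquiv.ofBijective (evalRep i K ρ s) ⟨evalRep_injective hs, evalRep_surjective hs⟩

theorem mackeyEquiv_apply (s : DoubleCoset.Quotient (i.range : Set G) K → G)
    (hs : ∀ q, DoubleCoset.mk i.range K (s q) = q) (f : biInv i K ρ)
    (q : DoubleCoset.Quotient (i.range : Set G) K) :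
    ((mackeyEquiv s hs f) q : X) = f.1 (s q) := rfl

section finrank

variable {F G' H' X' : Type*} [Field F] [Group G'] [Group H'] [AddCommGroup X'] [Module F X']
  [FiniteDimensional F X'] {i' : H' →* G'} {K' : Subgroup G'} {ρ' : Representation F H' X'}
  [Fintype (DoubleCoset.Quotient (i'.range : Set G') K')]

/-- **Mackey's formula for invariants**, dimension form. -/
theorem finrank_biInv (s : DoubleCoset.Quotient (i'.range : Set G') K' → G')
    (hs : ∀ q, DoubleCoset.mk i'.range K' (s q) = q) :
    Module.finrank F (biInv i' K' ρ') = ∑ q, Module.finrank F (fixedBy i' K' ρ' (s q)) := by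
  rw [LinearEquiv.finrank_eq (mackeyEquiv s hs), Module.finrank_pi_fintype]

theorem finiteDimensional_biInv (s : DoubleCoset.Quotient (i'.range : Set G') K' → G')
    (hs : ∀ q, DoubleCoset.mk i'.range K' (s q) = q) : FiniteDimensional F (biInv i' K' ρ') :=
  LinearEquiv.finiteDimensional (mackeyEquiv s hs).symm

end finrank

end Fermat.Agent.TW.TateMackey6.Abstract
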