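/-
Programme TW (S56), brick C3-T4c (helper6): Mackey's formula for the `K`-invariants of the SMOOTH
coinduced module `scoind i 𝓑G X` of the Poitou–Tate library (`PT/PRO/SmoothCoind28`).

If `i : H →* G` is "open" for the level bases (`∀ V ∈ 𝓑H, ∃ U ∈ 𝓑G, U ≤ V.map i`), `X` is a discrete
`H`-module and `i(H) \ G / K` is finite, then every bi-invariant function is a level function, so
the `K`-invariants of `scoind i 𝓑G X` are the module `biInv i K X.ρ` of `Abstract.lean`, and
  `dim (scoind i 𝓑G X)^K = Σ_{q ∈ i(H)\G/K} dim X^{i⁻¹(s_q K s_q⁻¹)}`.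
-/
import Mathlib
import Fermat.Agent.PT.PRO.SmoothCoind28
import Fermat.Agent.TW.TateMackey6.Abstract

set_option autoImplicit false

universe u

namespace Fermat.Agent.TW.TateMackey6.Smooth

open Fermat.Agent.PT.PRO.LevelCoh28 Fermat.Agent.PT.PRO.SmoothCoind28
  Fermat.Agent.TW.TateMackey6.Abstract

variable {k G H : Type u} [CommRing k] [Group G] [Group H]
  (i : H →* G) (𝓑G : LevelBasis G) (𝓑H : LevelBasis H) (X : Rep.{u} k H) (K : Subgroup G)

/-- The `K`-invariants of the smooth coinduced module. -/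
def invK : Submodule k (scoind i 𝓑G X) where
  carrier := {f | ∀ c ∈ K, (scoind i 𝓑G X).ρ c f = f}
  add_mem' := fun {f f'} hf hf' c hc => by rw [map_add, hf c hc, hf' c hc]
  zero_mem' := fun c _ => map_zero _
  smul_mem' := fun a f hf c hc => by rw [map_smul, hf c hc]

theorem mem_invK {f : scoind i 𝓑G X} :
    f ∈ invK i 𝓑G X K ↔ ∀ c ∈ K, (scoind i 𝓑G X).ρ c f = f := Iff.rfl

/-- The underlying function of a `K`-invariant element is bi-invariant. -/
theorem coe_mem_biInv {f : scoind i 𝓑G X} (hf : f ∈ invK i 𝓑G X K) :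
    f.1 ∈ biInv i K X.ρ := by
  refine ⟨fun h g => scoind_equivariant i 𝓑G X f h g, fun g c hc => ?_⟩
  have := congrArg (fun e : scoind i 𝓑G X => e.1 g) (hf c hc)
  simpa using this

/-- **Bi-invariant functions are level functions** when `i` is open, `X` is discrete and there are
finitely many double cosets. -/
theorem isLevel_of_biInv
    (hopen : ∀ V ∈ 𝓑H.sets, ∃ U ∈ 𝓑G.sets, U ≤ V.map i)
    (hX : IsDiscrete 𝓑H.sets X) [Finite (DoubleCoset.Quotient (i.range : Set G) K)]
    {f : G → X} (hf : f ∈ biInv i K X.ρ) : IsLevel₁ 𝓑G.sets f := by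
  classical
  -- representatives
  let s : DoubleCoset.Quotient (i.range : Set G) K → G := Quotient.out
  have hs : ∀ q, DoubleCoset.mk i.range K (s q) = q := fun q => DoubleCoset.out_eq' _ _ q
  -- a member of `𝓑H` fixing all the values at the representatives
  have hfin : (Set.range fun q => f (s q)).Finite := Set.finite_range _
  obtain ⟨V, hV, -, hVfix⟩ := hX.exists_fixing 𝓑H.isBasis hfin
  obtain ⟨U, hU, hUV⟩ := hopen V hV
  obtain ⟨U', hU', hU'U, hn⟩ := 𝓑G.isBasis.normalCore U hU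
  refine ⟨U', hU', fun g u hu => ?_⟩
  obtain ⟨h, c, hc, hg⟩ := exists_decomp (i := i) (K := K) hs g
  set q := DoubleCoset.mk i.range K g with hq
  -- move `u` to the left of the representative
  have hu1 : c * u * c⁻¹ ∈ U' := hn.conj_mem u hu c
  have hu2 : s q * (c * u * c⁻¹) * (s q)⁻¹ ∈ U' := hn.conj_mem _ hu1 (s q)
  obtain ⟨v, hv, hvi⟩ := hUV (hU'U hu2)
  have e : g * u = i (h * v) * s q * c := by
    rw [map_mul, hvi]
    conv_lhs => rw [hg]
    group
  have e' : g = i h * s q * c := hg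
  rw [e, eval_mul_mul hf _ _ c hc, map_mul, Module.End.mul_apply,
    hVfix v hv (f (s q)) ⟨q, rfl⟩]
  conv_rhs => rw [e']
  rw [eval_mul_mul hf _ _ c hc]

/-- The `K`-invariants of `scoind` are the bi-invariant functions. -/
noncomputable def invKEquiv
    (hopen : ∀ V ∈ 𝓑H.sets, ∃ U ∈ 𝓑G.sets, U ≤ V.map i)
    (hX : IsDiscrete 𝓑H.sets X) [Finite (DoubleCoset.Quotient (i.range : Set G) K)] :
    invK i 𝓑G X K ≃ₗ[k] biInv i K X.ρ where
  toFun f := ⟨f.1.1, coe_mem_biInv i 𝓑G X K f.2⟩
  map_add' _ _ := rfl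
  map_smul' _ _ := rfl
  invFun f := ⟨⟨f.1, f.2.1, isLevel_of_biInv i 𝓑G 𝓑H X K hopen hX f.2⟩, fun c hc => by
    apply Subtype.ext
    funext g
    exact f.2.2 g c hc⟩
  left_inv _ := rfl
  right_inv _ := rfl

section finrank

variable {F G' H' : Type u} [Field F] [Group G'] [Group H']
  (i' : H' →* G') (𝓑G' : LevelBasis G') (𝓑H' : LevelBasis H') (X' : Rep.{u} F H')
  (K' : Subgroup G') [FiniteDimensional F X']
  [Fintype (DoubleCoset.Quotient (i'.range : Set G') K')]

/-- **Mackey's formula for the invariants of the smooth coinduced module.** -/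
theorem finrank_invK
    (hopen : ∀ V ∈ 𝓑H'.sets, ∃ U ∈ 𝓑G'.sets, U ≤ V.map i')
    (hX : IsDiscrete 𝓑H'.sets X')
    (s : DoubleCoset.Quotient (i'.range : Set G') K' → G')
    (hs : ∀ q, DoubleCoset.mk i'.range K' (s q) = q) :
    Module.finrank F (invK i' 𝓑G' X' K') =
      ∑ q, Module.finrank F (fixedBy i' K' X'.ρ (s q)) := by
  rw [LinearEquiv.finrank_eq (invKEquiv i' 𝓑G' 𝓑H' X' K' hopen hX), finrank_biInv s hs]

end finrank

end Fermat.Agent.TW.TateMackey6.Smooth
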